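/-
S56 / W5 leaf L1 (Chebotarev wrapper), helper file.  helper8.

* `fc_dvd_coeff_zero`: a nonzero algebraic integer lying in the maximal ideal of a place over `q`
  has `q ∣ (minpoly ℤ x).coeff 0`;
* `fc_exists_finset_inertia_le`: a finite extension `F/ℚ` is unramified outside a finite set
  (inertia groups are contained in `Gal(ℚ̄/F)`);
* `fc_isFrobeniusAt_iff`, `fc_isFrobeniusAt_conj`, `fc_inv_mul_mem_inertia`: elementwise
  description of Frobenius elements, conjugation, and uniqueness modulo inertia.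
-/
import Fermat.Agent.MUL.Orig.Lib.KFin.Inertia
import Fermat.Agent.MUL.Orig.Lib.Cyclo.RootsReduce
import Fermat.Agent.MUL.S48.W.H.GaloisComm

set_option autoImplicit false

open scoped Pointwise

namespace Fermat.Agent.S56.TW

open Fermat.Agent.Cyclo Fermat.Agent.KFin Polynomial

local notation "Qb" => AlgebraicClosure ℚ
local notation "GQ'" => (AlgebraicClosure ℚ ≃ₐ[ℚ] AlgebraicClosure ℚ)

section General

variable {K L : Type*} [Field K] [Field L] [Algebra K L]

/-- Elementwise description of Frobenius elements. -/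
theorem fc_isFrobeniusAt_iff (A : ValuationSubring L) (τ : L ≃ₐ[K] L) (q : ℕ) :
    A.IsFrobeniusAt τ q ↔ τ • A = A ∧ ∀ a ∈ A, τ a - a ^ q ∈ A.nonunits := by
  constructor
  · intro h
    exact ⟨h.mem_decompositionSubgroup, fun a ha => frob_sub_pow_mem_nonunits A h ha⟩
  · rintro ⟨hτ, h⟩
    have hdec : τ ∈ A.decompositionSubgroup K := hτ
    refine ⟨hdec, fun x => ?_⟩
    obtain ⟨a, rfl⟩ := IsLocalRing.residue_surjective x
    have h3 : ((⟨τ, hdec⟩ : A.decompositionSubgroup K) • a - a ^ q) ∈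
        IsLocalRing.maximalIdeal A := by
      rw [← A.coe_mem_nonunits_iff]
      exact h a.1 a.2
    have h2 := (IsLocalRing.residue_eq_zero_iff _).mpr h3
    rw [map_sub, sub_eq_zero, map_pow] at h2
    exact h2

/-- Conjugation of Frobenius elements. -/
theorem fc_isFrobeniusAt_conj (A : ValuationSubring L) (σ τ : L ≃ₐ[K] L) (q : ℕ)
    (hτ : A.IsFrobeniusAt τ q) : (σ • A).IsFrobeniusAt (σ * τ * σ⁻¹) q := by
  rw [fc_isFrobeniusAt_iff] at hτ ⊢
  obtain ⟨h1, h2⟩ := hτ
  refine ⟨?_, ?_⟩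
  · rw [mul_smul, inv_smul_smul, mul_smul, h1]
  · intro b hb
    obtain ⟨a, ha, rfl⟩ := (ValuationSubring.mem_smul_pointwise_iff_exists σ b A).mp hb
    have h3 := kf_smul_mem_nonunits A σ (h2 a ha)
    have h4 : (σ * τ * σ⁻¹) (σ • a) - (σ • a) ^ q = σ (τ a - a ^ q) := by
      rw [map_sub, map_pow]
      congr 1
      show σ (τ (σ⁻¹ (σ a))) = σ (τ a)
      congr 2
      show σ.symm (σ a) = a
      simp
    rw [h4]
    exact h3

/-- Two Frobenius elements at the same place differ by an element of the inertia group. -/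
theorem fc_inv_mul_mem_inertia (A : ValuationSubring L) (τ φ : L ≃ₐ[K] L) (q : ℕ)
    (hτ : A.IsFrobeniusAt τ q) (hφ : A.IsFrobeniusAt φ q) :
    τ⁻¹ * φ ∈ A.inertiaSubgroupIn K := by
  rw [fc_isFrobeniusAt_iff] at hτ hφ
  obtain ⟨h1, h2⟩ := hτ
  obtain ⟨h3, h4⟩ := hφ
  have h1' : τ⁻¹ • A = A := by
    conv_lhs => rw [← h1]
    rw [inv_smul_smul]
  rw [kf_mem_inertiaSubgroupIn_iff]
  refine ⟨by rw [mul_smul, h3, h1'], fun a ha => ?_⟩
  -- `φ a - τ a ∈ 𝔪`
  have h5 : φ a - τ a ∈ A.nonunits := by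
    have : φ a - τ a = (φ a - a ^ q) + -(τ a - a ^ q) := by ring
    rw [this]
    exact nonunits_add_mem A (h4 a ha) (nonunits_neg_mem A (h2 a ha))
  have h6 := kf_smul_mem_nonunits A τ⁻¹ h5
  rw [h1'] at h6
  have h7 : (τ⁻¹ * φ) a - a = τ⁻¹ (φ a - τ a) := by
    rw [map_sub]
    congr 1
    show a = τ.symm (τ a)
    simp
  rw [h7]
  exact h6

end General

/-- A nonzero algebraic integer in the maximal ideal of a place over `q`: `q` divides the
constant coefficient of its minimal polynomial. -/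
theorem fc_dvd_coeff_zero (x : Qb) (_hx : IsIntegral ℤ x) (A : ValuationSubring Qb) (q : ℕ)
    (hq : q.Prime) (hA : A.LiesOverPrime q) (hxA : x ∈ A.nonunits) :
    (q : ℤ) ∣ (minpoly ℤ x).coeff 0 := by
  by_contra hdvd
  have hxmem : x ∈ A := A.nonunits_subset hxA
  have hint : ∀ z : ℤ, (z : Qb) ∈ A := fun z => intCast_mem A.toSubring z
  -- `c = - x * g(x)`
  set f := minpoly ℤ x with hf
  have h1 : aeval x f = 0 := minpoly.aeval ℤ x
  have h2 : f = f.divX * X + C (f.coeff 0) := (Polynomial.divX_mul_X_add f).symm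
  have h3 : aeval x f.divX * x + ((f.coeff 0 : ℤ) : Qb) = 0 := by
    have := h1
    rw [h2] at this
    simpa using this
  have h4 : aeval x f.divX ∈ A := by
    rw [Polynomial.aeval_eq_sum_range]
    refine A.toSubring.sum_mem fun i _ => ?_
    rw [zsmul_eq_mul]
    exact A.mul_mem _ _ (hint _) (A.pow_mem hxmem i)
  have h5 : ((f.coeff 0 : ℤ) : Qb) ∈ A.nonunits := by
    have : ((f.coeff 0 : ℤ) : Qb) = -(x * aeval x f.divX) := by
      linear_combination h3
    rw [this]
    exact nonunits_neg_mem A (nonunits_mul_mem A hxA h4)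
  -- Bezout
  have hcop : IsCoprime (q : ℤ) (f.coeff 0) := by
    rw [Int.isCoprime_iff_gcd_eq_one]
    have hq' : Prime (q : ℤ) := Nat.prime_iff_prime_int.mp hq
    exact Int.isCoprime_iff_gcd_eq_one.mp ((hq'.coprime_iff_not_dvd).mpr hdvd)
  obtain ⟨u, v, huv⟩ := hcop
  have h6 : (1 : Qb) ∈ A.nonunits := by
    have : (1 : Qb) = ((q : ℕ) : Qb) * (u : Qb) + ((f.coeff 0 : ℤ) : Qb) * (v : Qb) := by
      have := congrArg (fun z : ℤ => (z : Qb)) huv
      push_cast at this
      linear_combination -this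
    rw [this]
    exact nonunits_add_mem A (nonunits_mul_mem A hA (hint u)) (nonunits_mul_mem A h5 (hint v))
  exact one_not_mem_nonunits A h6

/-- Algebraic integers lie in every valuation subring. -/
theorem fc_mem_of_isIntegral (A : ValuationSubring Qb) {x : Qb} (hx : IsIntegral ℤ x) :
    x ∈ A := by
  have h1 : IsIntegral A x := hx.tower_top
  obtain ⟨y, hy⟩ := IsIntegrallyClosed.isIntegral_iff.mp h1
  rw [← hy]
  exact y.2

theorem fc_coeff_zero_ne_zero {x : Qb} (hx : IsIntegral ℤ x) (h0 : x ≠ 0) :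
    (minpoly ℤ x).coeff 0 ≠ 0 := by
  have h1 : minpoly ℚ x = (minpoly ℤ x).map (algebraMap ℤ ℚ) :=
    minpoly.isIntegrallyClosed_eq_field_fractions' ℚ hx
  have h2 : (minpoly ℚ x).coeff 0 ≠ 0 := minpoly.coeff_zero_ne_zero hx.tower_top h0
  intro h
  apply h2
  rw [h1, Polynomial.coeff_map, h, map_zero]

/-- If `q` is outside the finite set of primes dividing the constant coefficients of the minimal
polynomials of the differences `γ - β` of the conjugates `γ ≠ β` of the algebraic integer `β`,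
then the inertia groups at `q` fix `β`. -/
theorem fc_exists_finset_inertia_fix (β : Qb) (hβ : IsIntegral ℤ β) :
    ∃ R : Finset ℕ, ∀ q : ℕ, q.Prime → q ∉ R → ∀ A : ValuationSubring Qb, A.LiesOverPrime q →
      ∀ σ ∈ A.inertiaSubgroupIn ℚ, σ β = β := by
  classical
  refine ⟨(((minpoly ℚ β).aroots Qb).toFinset.filter (fun γ => γ ≠ β)).biUnion
    (fun γ => ((minpoly ℤ (γ - β)).coeff 0).natAbs.primeFactors), fun q hq hqR A hA σ hσ => ?_⟩
  by_contra hne
  apply hqR
  have hβQ : IsIntegral ℚ β := hβ.tower_top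
  have hγint : IsIntegral ℤ (σ β) := map_isIntegral_int σ hβ
  have hxint : IsIntegral ℤ (σ β - β) := hγint.sub hβ
  have hx0 : σ β - β ≠ 0 := sub_ne_zero.mpr hne
  have hxA : σ β - β ∈ A.nonunits := inertia_sub_mem_nonunits A hσ (fc_mem_of_isIntegral A hβ)
  have hdvd := fc_dvd_coeff_zero (σ β - β) hxint A q hq hA hxA
  rw [Finset.mem_biUnion]
  refine ⟨σ β, ?_, ?_⟩
  · rw [Finset.mem_filter, Multiset.mem_toFinset, Polynomial.mem_aroots]
    exact ⟨⟨minpoly.ne_zero hβQ, minpoly.aeval_algHom ℚ (σ : Qb →ₐ[ℚ] Qb) β⟩, hne⟩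
  · rw [Nat.mem_primeFactors]
    refine ⟨hq, ?_, ?_⟩
    · exact Int.natCast_dvd.mp hdvd
    · rw [Ne, Int.natAbs_eq_zero]
      exact fc_coeff_zero_ne_zero hxint hx0

/-- A finite extension `F/ℚ` is unramified outside a finite set of primes. -/
theorem fc_exists_finset_inertia_le (F : IntermediateField ℚ Qb) [FiniteDimensional ℚ F] :
    ∃ R : Finset ℕ, ∀ q : ℕ, q.Prime → q ∉ R → ∀ A : ValuationSubring Qb, A.LiesOverPrime q →
      A.inertiaSubgroupIn ℚ ≤ F.fixingSubgroup := by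
  obtain ⟨α, hα⟩ := Field.exists_primitive_element ℚ F
  have hQ : Algebra.IsAlgebraic ℚ Qb := AlgebraicClosure.isAlgebraic ℚ
  have halgQ : IsIntegral ℚ ((α : F) : Qb) :=
    (Algebra.IsAlgebraic.isAlgebraic (R := ℚ) ((α : F) : Qb)).isIntegral
  obtain ⟨⟨n, hn⟩, hint⟩ := IsIntegral.exists_multiple_integral_of_isLocalization
    (nonZeroDivisors ℤ) ((α : F) : Qb) halgQ
  have hn0 : n ≠ 0 := nonZeroDivisors.ne_zero hn
  have hint : IsIntegral ℤ (n • ((α : F) : Qb)) := hint
  obtain ⟨R, hR⟩ := fc_exists_finset_inertia_fix (n • ((α : F) : Qb)) hint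
  refine ⟨R, fun q hq hqR A hA σ hσ => ?_⟩
  have h1 := hR q hq hqR A hA σ hσ
  have h2 : σ ((α : F) : Qb) = ((α : F) : Qb) := by
    rw [zsmul_eq_mul, map_mul, map_intCast] at h1
    exact mul_left_cancel₀ (Int.cast_ne_zero.mpr hn0) h1
  rw [IntermediateField.mem_fixingSubgroup_iff]
  intro y hy
  have h3 : (⟨y, hy⟩ : F) ∈ IntermediateField.adjoin ℚ {α} := by
    rw [hα]; exact IntermediateField.mem_top
  obtain ⟨r, s, hrs⟩ := (IntermediateField.mem_adjoin_simple_iff ℚ _).mp h3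
  have e : ∀ r : ℚ[X], ((Polynomial.aeval α r : F) : Qb) = Polynomial.aeval ((α : F) : Qb) r :=
    fun r => (Polynomial.aeval_algHom_apply F.val α r).symm
  have e2 : ∀ r : ℚ[X], σ (Polynomial.aeval ((α : F) : Qb) r) =
      Polynomial.aeval (σ ((α : F) : Qb)) r :=
    fun r => (Polynomial.aeval_algHom_apply (σ : Qb →ₐ[ℚ] Qb) ((α : F) : Qb) r).symm
  have h4 : y = Polynomial.aeval ((α : F) : Qb) r / Polynomial.aeval ((α : F) : Qb) s := by
    have h5 : ((⟨y, hy⟩ : F) : Qb) = ((Polynomial.aeval α r / Polynomial.aeval α s : F) : Qb) :=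
      congrArg (fun z : F => (z : Qb)) hrs
    rw [IntermediateField.coe_div, e, e] at h5
    exact h5
  rw [h4, map_div₀, e2, e2, h2]

end Fermat.Agent.S56.TW
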